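import Fermat.Agent.ClassGroupGRH.Split
import Fermat.Agent.ExistenceTheorem.HilbertClassField
import Fermat.Agent.HeckeDifferent.QuadraticField

/-!
# Bach's theorem: small primes generate the class group

On GRH the prime ideals of norm `≤ B S ^ 2 log (2 S) ^ 8`, `S = 1 + log |d| + n`, generate the class
group: a proper subgroup cuts out an unramified extension `E`, and `|d_E| = |d| ^ [E : K]`.
-/

set_option autoImplicit false
set_option linter.style.haveILetI false

noncomputable section

universe u

open NumberField IsDedekindDomain Module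
open FA.ArtinHooley (FieldRH fieldSize)
open FA.ArtinRec (toClassGroup unitModulus_ne_bot)
open FA.Ext (primeIdeal)
open scoped nonZeroDivisors Classical

namespace FA.ClassGRH

/-- The classes of the primes of norm at most `x`. -/
def smallPrimeClasses (K : Type u) [Field K] [NumberField K] (x : ℝ) : Set (ClassGroup (𝓞 K)) :=
  {c | ∃ v : HeightOneSpectrum (𝓞 K),
    (Ideal.absNorm v.asIdeal : ℝ) ≤ x ∧ ClassGroup.mk0 (primeIdeal v) = c}

/-- The field cut out by a subgroup of the class group. -/
theorem exists_subExtension (K : Type u) [Field K] [NumberField K]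
    {H : Subgroup (ClassGroup (𝓞 K))} (hH : H ≠ ⊤) :
    ∃ (E : Type u) (_ : Field E) (_ : NumberField E) (_ : Algebra K E) (_ : IsGalois K E),
      2 ≤ finrank K E ∧ fieldSize E ≤ finrank K E * fieldSize K ∧
      ∀ v : HeightOneSpectrum (𝓞 K), ClassGroup.mk0 (primeIdeal v) ∈ H →
        v ∈ FA.NaturalChebotarev.someFrobSet K E {1} := by
  obtain ⟨E, _, _, _, _, _, hE⟩ := FA.ArtinRec.exists_classField (unitModulus_ne_bot K)
    (∅ : Set (InfinitePlace K)) (H.comap (toClassGroup K))
    ((FA.ArtinRec.ker_toClassGroup K).ge.trans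
      (MonoidHom.ker_le_comap (toClassGroup K) H))
  haveI : Algebra.Unramified (𝓞 K) (𝓞 E) :=
    FA.HeckeDiff.unramified_of_not_isRam fun v => hE.unram v (sup_top_eq _)
  have hd := FA.HeckeDiff.natAbs_discr_of_unramified (K := K) (L := E)
  have h2 : 2 ≤ finrank K E := by
    obtain ⟨ω, hsurj, hker, -⟩ := hE.artin
    by_contra hlt
    have h1 : Nat.card (E ≃ₐ[K] E) = 1 := by
      have := Module.finrank_pos (R := K) (M := E)
      rw [IsGalois.card_aut_eq_finrank]
      omega
    haveI := (Nat.card_eq_one_iff_unique.1 h1).1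
    refine hH ((Subgroup.eq_top_iff' _).2 fun c => ?_)
    obtain ⟨γ, rfl⟩ := FA.ArtinRec.toClassGroup_surjective K c
    have : γ ∈ ω.ker := Subsingleton.elim _ _
    rwa [hker] at this
  refine ⟨E, inferInstance, inferInstance, inferInstance, inferInstance, h2, ?_, fun v hv => ?_⟩
  · rw [fieldSize, fieldSize, hd, Nat.cast_pow, Real.log_pow, ← Module.finrank_mul_finrank ℚ K E,
      Nat.cast_mul]
    have : (2 : ℝ) ≤ finrank K E := by exact_mod_cast h2
    nlinarith
  · obtain ⟨Q, hQ, hτ⟩ := FA.ArtinRec.artinAt_spec (L := E) v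
    rw [(hE.artinAt_eq_one_iff v (sup_top_eq _)).2 (by
      rw [Subgroup.mem_comap, FA.ArtinRec.toClassGroup_apply]
      exact hv)] at hτ
    exact ⟨Q.asIdeal, Q.isMaximal, congrArg HeightOneSpectrum.asIdeal hQ, 1,
      Set.mem_singleton _, hτ⟩

/-- **Bach's theorem.** -/
theorem exists_generation_of_GRH : ∃ B : ℝ, 0 < B ∧
    ((∀ (E : Type) [Field E] [NumberField E], FieldRH E) →
      ∀ (K : Type) [Field K] [NumberField K],
        Subgroup.closure
          (smallPrimeClasses K (B * fieldSize K ^ 2 * Real.log (2 * fieldSize K) ^ 8)) = ⊤) := by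
  obtain ⟨B, hB, h⟩ := exists_nonsplit_prime_of_RH.{0, 0}
  refine ⟨B, hB, fun hGRH K _ _ => ?_⟩
  by_contra hne
  obtain ⟨E, _, _, _, _, h2, hsize, hsplit⟩ := exists_subExtension K hne
  obtain ⟨v, hv, -, hle⟩ := h (hGRH K) (hGRH E) h2 (fieldSize K) 1 le_rfl hsize one_ne_zero (by
    rw [Nat.cast_one, Real.log_one]
    exact zero_le_one.trans (FA.ArtinHooley.one_le_fieldSize (K := K)).1)
  exact hv (hsplit v (Subgroup.subset_closure ⟨v, hle, rfl⟩))

end FA.ClassGRH

end
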