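import Fermat.Agent.ChebotarevGRH.Applications
import Mathlib.Analysis.Complex.Basic
import Mathlib.FieldTheory.Galois.Basic
import Mathlib.NumberTheory.NumberField.Discriminant.Basic
import Mathlib.NumberTheory.NumberField.ClassNumber
import Mathlib.NumberTheory.NumberField.InfinitePlace.TotallyRealComplex

/-!
# The exponent of the class group of an imaginary quadratic field, on GRH

After Boyd-Kisilevsky and Weinberger: a small prime `p` splits, and if the `e`-th power of a prime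
over it is principal then `p ^ e` is the norm of an irrational integer, so at least `|d| / 4`. Hence
`e ≥ c log |d| / log (log |d| + 16)`.
-/

set_option autoImplicit false
set_option linter.style.haveILetI false

noncomputable section

open NumberField IsDedekindDomain Module Polynomial
open FA.ArtinHooley (FieldRH fieldSize)
open scoped nonZeroDivisors Classical

namespace FA.ClassGRH

variable {K : Type} [Field K] [NumberField K]

/-- **Irrational integers of an imaginary quadratic field have norm `≥ |d| / 4`.** -/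
theorem natAbs_discr_le_four_norm (hK : finrank ℚ K = 2) [IsTotallyComplex K] {α : 𝓞 K}
    (hα : ∀ a : ℤ, α ≠ (a : 𝓞 K)) :
    (discr K).natAbs ≤ 4 * (Algebra.norm ℤ α).natAbs := by
  have hint : IsIntegral ℤ α := Algebra.IsIntegral.isIntegral α
  obtain ⟨g, hg⟩ : ∃ g, g = minpoly ℤ α := ⟨_, rfl⟩
  have hgm : g.Monic := hg ▸ minpoly.monic hint
  have hg0 : aeval α g = 0 := hg ▸ minpoly.aeval ℤ α
  have hQ : minpoly ℚ (α : K) = g.map (algebraMap ℤ ℚ) := by
    rw [hg, minpoly.isIntegrallyClosed_eq_field_fractions' ℚ (RingOfIntegers.isIntegral_coe α),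
      ← minpoly.algebraMap_eq RingOfIntegers.coe_injective α]
  have hdeg : g.natDegree = 2 := by
    have h1 : (minpoly ℚ (α : K)).natDegree = g.natDegree := by
      rw [hQ, hgm.natDegree_map]
    have h2 := minpoly.natDegree_le (A := ℚ) (α : K)
    have h3 := minpoly.natDegree_pos hint
    rw [hK, h1] at h2
    rw [← hg] at h3
    by_contra hne
    have h4 : g.natDegree = 1 := by omega
    refine hα (-g.coeff 0) ?_
    rw [hgm.eq_X_add_C h4] at hg0
    simp only [map_add, aeval_X, aeval_C] at hg0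
    rw [Int.cast_neg]
    simpa [algebraMap_int_eq] using eq_neg_of_add_eq_zero_left hg0
  have htop : Algebra.adjoin ℚ {(α : K)} = ⊤ := by
    have hi : IsIntegral ℚ (α : K) := Algebra.IsIntegral.isIntegral _
    have : IntermediateField.adjoin ℚ {(α : K)} = ⊤ := by
      refine IntermediateField.eq_of_le_of_finrank_eq le_top ?_
      rw [IntermediateField.adjoin.finrank hi, IntermediateField.finrank_top', hK, hQ,
        hgm.natDegree_map, hdeg]
    rw [← IntermediateField.adjoin_simple_toSubalgebra_of_isAlgebraic hi.isAlgebraic, this,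
      IntermediateField.top_toSubalgebra]
  obtain ⟨b, c, hgbc⟩ : ∃ b c : ℤ, g = X ^ 2 + C b * X + C c :=
    ⟨g.coeff 1, g.coeff 0, by
      conv_lhs => rw [hgm.as_sum, hdeg]
      simp [Finset.sum_range_succ]
      ring⟩
  have hmem : (2 : 𝓞 K) * α + (b : 𝓞 K) ∈ differentIdeal ℤ (𝓞 K) := by
    have h1 : aeval α (derivative g) = (2 : 𝓞 K) * α + (b : 𝓞 K) := by
      rw [hgbc]
      simp [derivative_pow, map_ofNat]
    rw [← h1, hg]
    exact aeval_derivative_mem_differentIdeal ℤ ℚ K α htop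
  have hdvd : (discr K).natAbs ∣ (Algebra.norm ℤ ((2 : 𝓞 K) * α + (b : 𝓞 K))).natAbs := by
    rw [← NumberField.absNorm_differentIdeal K (𝓞 K), ← Ideal.absNorm_span_singleton]
    exact Ideal.absNorm_dvd_absNorm_of_le ((Ideal.span_singleton_le_iff_mem _).2 hmem)
  obtain ⟨w⟩ := (inferInstance : Nonempty (InfinitePlace K))
  have hwc : InfinitePlace.IsComplex w := IsTotallyComplex.isComplex w
  have hwnorm : ∀ x : 𝓞 K, ((Algebra.norm ℤ x).natAbs : ℝ) = ‖w.embedding (x : K)‖ ^ 2 :=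
      fun x => by
    have h1 := InfinitePlace.prod_eq_abs_norm (x : K)
    have hone : Fintype.card (InfinitePlace K) = 1 := by
      have := InfinitePlace.card_add_two_mul_card_eq_rank K
      rw [IsTotallyComplex.nrRealPlaces_eq_zero K, hK] at this
      rw [InfinitePlace.card_eq_nrRealPlaces_add_nrComplexPlaces,
        IsTotallyComplex.nrRealPlaces_eq_zero K]
      omega
    obtain ⟨w₀, hw₀⟩ := Fintype.card_eq_one_iff.1 hone
    rw [Fintype.prod_eq_single w (fun v hv => absurd ((hw₀ v).trans (hw₀ w).symm) hv),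
      InfinitePlace.mult, if_neg (InfinitePlace.not_isReal_iff_isComplex.2 hwc),
      ← InfinitePlace.norm_embedding_eq, ← Algebra.coe_norm_int x] at h1
    rw [h1, Nat.cast_natAbs, Int.cast_abs, Rat.cast_abs, Rat.cast_intCast]
  obtain ⟨z, hz⟩ : ∃ z, z = w.embedding (α : K) := ⟨_, rfl⟩
  have hzreal : z.im ≠ 0 := fun him => InfinitePlace.isComplex_iff.1 hwc (by
    rw [ComplexEmbedding.isReal_iff]
    refine RingHom.ext fun y => ?_
    have hy : y ∈ Algebra.adjoin ℚ {(α : K)} := htop ▸ Algebra.mem_top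
    induction hy using Algebra.adjoin_induction with
    | mem r hr =>
      rw [Set.mem_singleton_iff] at hr
      rw [hr, ComplexEmbedding.conjugate_coe_eq, ← hz]
      exact Complex.conj_eq_iff_im.2 him
    | algebraMap r => simp
    | add a a' _ _ ha ha' => rw [map_add, map_add, ha, ha']
    | mul a a' _ _ ha ha' => rw [map_mul, map_mul, ha, ha'])
  have hz0 : z ^ 2 + (b : ℂ) * z + (c : ℂ) = 0 := by
    have := congrArg (fun x : 𝓞 K => w.embedding (x : K)) hg0
    rw [hgbc] at this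
    simpa [hz] using this
  have hb : (b : ℝ) = -2 * z.re := by
    have him := congrArg Complex.im hz0
    simp [pow_two] at him
    have : z.im * (2 * z.re + b) = 0 := by linarith
    rcases mul_eq_zero.1 this with h | h
    · exact absurd h hzreal
    · linarith
  have hnorm : ((Algebra.norm ℤ ((2 : 𝓞 K) * α + (b : 𝓞 K))).natAbs : ℝ) = 4 * z.im ^ 2 := by
    rw [hwnorm, ← Complex.normSq_eq_norm_sq]
    have e : w.embedding (((2 : 𝓞 K) * α + (b : 𝓞 K) : 𝓞 K) : K) = 2 * z + (b : ℂ) := by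
      simp [hz, map_ofNat]
    rw [e, Complex.normSq_apply]
    simp
    rw [hb]
    ring
  have hpos : 0 < (Algebra.norm ℤ ((2 : 𝓞 K) * α + (b : 𝓞 K))).natAbs := by
    refine Nat.pos_of_ne_zero fun h => ?_
    rw [h, Nat.cast_zero] at hnorm
    exact hzreal (by nlinarith)
  refine (Nat.le_of_dvd hpos hdvd).trans ?_
  rw [← Nat.cast_le (α := ℝ), Nat.cast_mul, hnorm, hwnorm α, ← hz, ← Complex.normSq_eq_norm_sq,
    Complex.normSq_apply]
  push_cast
  nlinarith

/-- A prime of degree one whose `e`-th power is principal. -/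
theorem natAbs_discr_le_four_mul_pow (hK : finrank ℚ K = 2) [IsTotallyComplex K] {p e : ℕ}
    (hp : p.Prime) (hpd : ¬ (p : ℤ) ∣ discr K) {Q : Ideal (𝓞 K)} [Q.IsMaximal]
    (hQn : Ideal.absNorm Q = p) (he : 0 < e)
    (hprinc : Submodule.IsPrincipal (Q ^ e)) : (discr K).natAbs ≤ 4 * p ^ e := by
  obtain ⟨α, hα⟩ := hprinc.1
  rw [← Ideal.span] at hα
  have hn : (Algebra.norm ℤ α).natAbs = p ^ e := by
    rw [← Ideal.absNorm_span_singleton, ← hα, map_pow, hQn]
  rw [← hn]
  refine natAbs_discr_le_four_norm hK fun a ha => hpd ?_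
  have hQ0 : Q ≠ ⊥ := fun h => by
    rw [h, Ideal.absNorm_bot] at hQn
    exact hp.ne_zero hQn.symm
  have hQp : Prime Q := Ideal.prime_of_isPrime hQ0 inferInstance
  have hpa : (p : ℤ) ∣ a := by
    rw [ha, show (a : 𝓞 K) = algebraMap ℤ (𝓞 K) a by simp, Algebra.norm_algebraMap,
      RingOfIntegers.rank, hK, Int.natAbs_pow] at hn
    exact Int.natCast_dvd.2 (hp.dvd_of_dvd_pow (hn ▸ dvd_pow_self p he.ne'))
  obtain ⟨a', rfl⟩ := hpa
  have h1 : Ideal.span {((p : ℕ) : 𝓞 K)} ∣ Q ^ e := by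
    rw [hα, ha]
    refine Ideal.dvd_iff_le.2 ((Ideal.span_singleton_le_iff_mem _).2
      (Ideal.mem_span_singleton.2 ?_))
    rw [Int.cast_mul, Int.cast_natCast]
    exact dvd_mul_right _ _
  obtain ⟨j, -, hj⟩ := (dvd_prime_pow hQp e).1 h1
  have hj' : Ideal.span {((p : ℕ) : 𝓞 K)} = Q ^ j := associated_iff_eq.1 hj
  have hj2 : j = 2 := by
    have := congrArg Ideal.absNorm hj'
    rw [Ideal.absNorm_span_singleton, ← map_natCast (algebraMap ℤ (𝓞 K)), Algebra.norm_algebraMap,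
      RingOfIntegers.rank, hK, Int.natAbs_pow, Int.natAbs_natCast, map_pow, hQn] at this
    exact (Nat.pow_right_injective hp.two_le this).symm
  haveI := Fact.mk hp
  haveI : (Ideal.span {(p : ℤ)}).IsMaximal := Int.ideal_span_isMaximal_of_prime p
  have h2 : Q ^ (2 - 1) ∣ differentIdeal ℤ (𝓞 K) := by
    refine pow_sub_one_dvd_differentIdeal ℤ Q 2 (p := Ideal.span {(p : ℤ)}) ?_ ?_
    · simp [hp.ne_zero]
    · rw [Ideal.map_span, Set.image_singleton, map_natCast, hj', hj2]
  rw [pow_one] at h2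
  have h3 := map_dvd Ideal.absNorm h2
  rw [hQn, NumberField.absNorm_differentIdeal K (𝓞 K)] at h3
  exact Int.natCast_dvd.2 h3

/-- A split prime of degree one. -/
theorem exists_small_split_of_RH : ∃ B : ℝ, 0 < B ∧
    ∀ (K : Type) [Field K] [NumberField K], finrank ℚ K = 2 → FieldRH K →
      ∃ (p : ℕ) (Q : Ideal (𝓞 K)), p.Prime ∧ ¬ (p : ℤ) ∣ discr K ∧ Q.IsMaximal ∧
        (p : 𝓞 K) ∈ Q ∧ Ideal.absNorm Q = p ∧
        (p : ℝ) ≤ B * fieldSize K ^ 2 * Real.log (2 * fieldSize K) ^ 8 := by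
  obtain ⟨B, hB, h⟩ := FA.ChebGRH.exists_rat_prime_of_RH.{0}
  refine ⟨B, hB, fun K _ _ hK hRH => ?_⟩
  haveI : Algebra.IsQuadraticExtension ℚ K := ⟨hK⟩
  haveI : IsGalois ℚ K := Algebra.IsQuadraticExtension.isGalois ℚ K
  obtain ⟨p, hp, hpd, -, hle, Q, hQ, hpQ, τ, hτ, hfrob⟩ := h hRH ({1} : Set (K ≃ₐ[ℚ] K))
    (fun g hg y => by rw [Set.mem_singleton_iff.1 hg, mul_one, mul_inv_cancel]; rfl)
    (Set.singleton_nonempty 1) (fieldSize K) 1 le_rfl one_ne_zero (by
      rw [Nat.cast_one, Real.log_one]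
      exact zero_le_one.trans (FA.ArtinHooley.one_le_fieldSize (K := K)).1)
  refine ⟨p, Q, hp, hpd, hQ, hpQ, ?_, hle⟩
  rw [Set.mem_singleton_iff] at hτ
  subst hτ
  have hcard := FA.FrobeniusDensity.card_quotient_under hp hQ.ne_top hpQ
  haveI := hQ.isPrime
  have hQ0 : Q ≠ ⊥ := fun e => hp.ne_zero ((Nat.cast_eq_zero (R := 𝓞 K)).1 (by
    rw [e, Ideal.mem_bot] at hpQ
    exact hpQ))
  letI := Ideal.Quotient.field Q
  haveI : Finite (𝓞 K ⧸ Q) := Ideal.finiteQuotientOfFreeOfNeBot Q hQ0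
  haveI := Fintype.ofFinite (𝓞 K ⧸ Q)
  have hfix : ∀ x : 𝓞 K ⧸ Q, x ^ p = x := fun x => by
    obtain ⟨y, rfl⟩ := Ideal.Quotient.mk_surjective x
    rw [← map_pow]
    refine ((Ideal.Quotient.eq).2 ?_).symm
    have := hfrob y
    rwa [hcard] at this
  have hle' : Fintype.card (𝓞 K ⧸ Q) ≤ p := by
    have hne : (X ^ p - X : (𝓞 K ⧸ Q)[X]) ≠ 0 := FiniteField.X_pow_card_sub_X_ne_zero _ hp.one_lt
    refine le_trans ?_ (FiniteField.X_pow_card_sub_X_natDegree_eq (K' := 𝓞 K ⧸ Q) hp.one_lt).le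
    refine le_trans ?_ (Polynomial.card_roots' _)
    refine le_trans ?_ (Multiset.toFinset_card_le _)
    rw [← Finset.card_univ]
    exact Finset.card_le_card fun x _ => by
      rw [Multiset.mem_toFinset, mem_roots hne, IsRoot.def, eval_sub, eval_pow, eval_X, hfix,
        sub_self]
  have hN : Ideal.absNorm Q = Fintype.card (𝓞 K ⧸ Q) := by
    rw [Ideal.absNorm_apply, Submodule.cardQuot_apply, Nat.card_eq_fintype_card]
  refine le_antisymm (hN ▸ hle') (Nat.le_of_dvd (Nat.pos_of_ne_zero ?_) ?_)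
  · rw [hN]; exact Fintype.card_ne_zero
  · have h1 : Ideal.absNorm Q ∣ p ^ 2 := by
      have := map_dvd Ideal.absNorm (Ideal.dvd_span_singleton.2 hpQ)
      rwa [Ideal.absNorm_span_singleton, ← map_natCast (algebraMap ℤ (𝓞 K)),
        Algebra.norm_algebraMap, RingOfIntegers.rank, hK, Int.natAbs_pow,
        Int.natAbs_natCast] at this
    obtain ⟨i, -, hi⟩ := (Nat.dvd_prime_pow hp).1 h1
    rw [hi]
    refine dvd_pow_self p fun h0 => hQ.ne_top (Ideal.absNorm_eq_one_iff.1 ?_)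
    rw [hi, h0, pow_zero]

/-- **The exponent is large.** -/
theorem exists_exponent_ge_of_RH : ∃ c : ℝ, 0 < c ∧
    ∀ (K : Type) [Field K] [NumberField K] [IsTotallyComplex K], finrank ℚ K = 2 → FieldRH K →
      c * Real.log ((discr K).natAbs : ℝ) ≤
        Monoid.exponent (ClassGroup (𝓞 K)) * Real.log (Real.log ((discr K).natAbs : ℝ) + 16) := by
  obtain ⟨B, hB, h⟩ := exists_small_split_of_RH
  obtain ⟨M, hM⟩ : ∃ M, M = |Real.log B| + 20 := ⟨_, rfl⟩
  have hM20 : 20 ≤ M := by rw [hM]; linarith [abs_nonneg (Real.log B)]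
  refine ⟨1 / (2 * M), by positivity, fun K _ _ _ hK hRH => ?_⟩
  obtain ⟨p, Q, hp, hpd, hQ, -, hQn, hle⟩ := h K hK hRH
  haveI := hQ
  obtain ⟨e, he⟩ : ∃ e, e = Monoid.exponent (ClassGroup (𝓞 K)) := ⟨_, rfl⟩
  rw [← he]
  have he0 : 0 < e := he ▸ Nat.pos_of_ne_zero Monoid.exponent_ne_zero_of_finite
  have hQ0 : Q ∈ (Ideal (𝓞 K))⁰ := mem_nonZeroDivisors_of_ne_zero fun e0 => by
    rw [e0, Ideal.zero_eq_bot, Ideal.absNorm_bot] at hQn
    exact hp.ne_zero hQn.symm
  have hpe := natAbs_discr_le_four_mul_pow hK hp hpd hQn he0 (by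
    have h1 : ClassGroup.mk0 ((⟨Q, hQ0⟩ : (Ideal (𝓞 K))⁰) ^ e) = 1 := by
      rw [map_pow, he, Monoid.pow_exponent_eq_one]
    have h2 := (ClassGroup.mk0_eq_one_iff ((⟨Q, hQ0⟩ : (Ideal (𝓞 K))⁰) ^ e).2).1 h1
    simpa using h2)
  obtain ⟨L, hL⟩ : ∃ L, L = Real.log ((discr K).natAbs : ℝ) := ⟨_, rfl⟩
  obtain ⟨G, hG⟩ : ∃ G, G = Real.log (L + 16) := ⟨_, rfl⟩
  rw [← hL, ← hG]
  have hL0 : 0 ≤ L := hL ▸ Real.log_natCast_nonneg _
  have hG2 : 2 ≤ G := by
    rw [hG, Real.le_log_iff_exp_le (by linarith)]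
    have := Real.exp_one_lt_three
    calc Real.exp 2 = Real.exp 1 * Real.exp 1 := by rw [← Real.exp_add]; norm_num
      _ ≤ 3 * 3 := by gcongr
      _ ≤ L + 16 := by linarith
  have hS : fieldSize K = L + 3 := by
    rw [fieldSize, hK, ← hL]
    push_cast
    ring
  rw [hS] at hle
  have hl2 : 1 ≤ Real.log (2 * (L + 3)) := by
    rw [Real.le_log_iff_exp_le (by linarith)]
    linarith [Real.exp_one_lt_three]
  have hl16 : Real.log (L + 3) ≤ G := hG ▸ Real.log_le_log (by linarith) (by linarith)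
  have hll : Real.log (Real.log (2 * (L + 3))) ≤ 2 * G := by
    refine (Real.log_le_sub_one_of_pos (by linarith)).trans ?_
    rw [Real.log_mul two_ne_zero (by linarith)]
    have := Real.log_two_lt_d9
    linarith
  have hlp : Real.log p ≤ M * G := by
    refine (Real.log_le_log (Nat.cast_pos.2 hp.pos) hle).trans ?_
    rw [Real.log_mul (by positivity) (pow_ne_zero _ (by linarith)),
      Real.log_mul hB.ne' (by positivity), Real.log_pow, Real.log_pow, hM]
    have h2 : Real.log B ≤ |Real.log B| * G :=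
      (le_abs_self _).trans (le_mul_of_one_le_right (abs_nonneg _) (by linarith))
    push_cast
    linarith
  have hlog : L ≤ Real.log 4 + e * Real.log p := by
    rw [hL, ← Real.log_pow, ← Real.log_mul four_ne_zero (pow_ne_zero _ (by
      exact_mod_cast hp.ne_zero))]
    refine Real.log_le_log (Nat.cast_pos.2 (Int.natAbs_pos.2 (discr_ne_zero K))) ?_
    exact_mod_cast hpe
  have h4 : Real.log 4 ≤ 2 := by
    rw [Real.log_le_iff_le_exp four_pos]
    calc (4 : ℝ) = 2 * 2 := by norm_num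
      _ ≤ Real.exp 1 * Real.exp 1 := by
          have := Real.add_one_le_exp 1
          gcongr <;> linarith
      _ = Real.exp 2 := by rw [← Real.exp_add]; norm_num
  have he1 : (1 : ℝ) ≤ e := Nat.one_le_cast.2 he0
  rw [div_mul_eq_mul_div, one_mul, div_le_iff₀ (by positivity)]
  have h5 : (e : ℝ) * Real.log p ≤ e * (M * G) := by gcongr
  have h6 : 2 ≤ (e : ℝ) * (M * G) :=
    le_trans (show (2 : ℝ) ≤ M * G by nlinarith) (le_mul_of_one_le_left (by positivity) he1)
  linarith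

/-- The discriminant is bounded in terms of the exponent. -/
theorem exists_discr_le_of_RH : ∃ D : ℕ → ℝ,
    ∀ (K : Type) [Field K] [NumberField K] [IsTotallyComplex K], finrank ℚ K = 2 → FieldRH K →
      ∀ e : ℕ, 0 < e → (∀ x : ClassGroup (𝓞 K), x ^ e = 1) → ((discr K).natAbs : ℝ) ≤ D e := by
  obtain ⟨c, hc, h⟩ := exists_exponent_ge_of_RH
  refine ⟨fun e => Real.exp ((2 * e / c + 4) ^ 2), fun K _ _ _ hK hRH e he hx => ?_⟩
  have hle : (Monoid.exponent (ClassGroup (𝓞 K)) : ℝ) ≤ e :=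
    Nat.cast_le.2 (Nat.le_of_dvd he (Monoid.exponent_dvd_of_forall_pow_eq_one hx))
  have h1 := h K hK hRH
  obtain ⟨L, hL⟩ : ∃ L, L = Real.log ((discr K).natAbs : ℝ) := ⟨_, rfl⟩
  have hL0 : 0 ≤ L := hL ▸ Real.log_natCast_nonneg _
  rw [← hL] at h1
  refine (Real.log_le_iff_le_exp (Nat.cast_pos.2 (Int.natAbs_pos.2 (discr_ne_zero K)))).1 ?_
  rw [← hL]
  obtain ⟨t, ht⟩ : ∃ t, t = √(L + 16) := ⟨_, rfl⟩
  have ht0 : 4 ≤ t := ht ▸ Real.le_sqrt_of_sq_le (by norm_num; linarith)
  have htt : t * t = L + 16 := ht ▸ Real.mul_self_sqrt (by linarith)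
  have hlg : Real.log (L + 16) ≤ 2 * t := by
    rw [← htt, Real.log_mul (by linarith) (by linarith)]
    linarith [Real.log_le_sub_one_of_pos (show 0 < t by linarith)]
  obtain ⟨a, ha⟩ : ∃ a, a = 2 * (e : ℝ) / c := ⟨_, rfl⟩
  rw [← ha]
  have ha0 : 0 ≤ a := by rw [ha]; positivity
  have h2 : L ≤ a * t := by
    rw [ha, div_mul_eq_mul_div, le_div_iff₀ hc, mul_comm L]
    refine h1.trans ((mul_le_mul hle hlg (Real.log_nonneg (by linarith)) (Nat.cast_nonneg _)).trans
      (le_of_eq (by ring)))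
  have h3 : t ≤ a + 4 := by nlinarith
  calc L ≤ t * t := by linarith
    _ ≤ (a + 4) ^ 2 := by rw [sq]; exact mul_le_mul h3 h3 (by linarith) (by linarith)

end FA.ClassGRH

end
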