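import Fermat.Agent.ChebotarevGRH.Main

/-!
# A small prime which does not split completely, on the Riemann hypothesis

The primes of `K` of norm `≤ x` weigh `x + O (S_K √x log ^ 4 x)` and those with a trivial Frobenius
element in `L` weigh `x / [L : K] + O ((S_L / [L : K]) √x log ^ 4 x)`, so some prime of norm
`≤ B R ^ 2 log (2 R) ^ 8` is of the second kind for no `L ≠ K`, when `S_K ≤ R` and
`S_L ≤ [L : K] R`. Only the size of `S_L / [L : K]` enters, not the degree.
-/

set_option autoImplicit false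
set_option linter.style.haveILetI false

noncomputable section

universe u v

open NumberField IsDedekindDomain Module
open FA.ArtinHooley (FieldRH fieldSize one_le_fieldSize)
open FA.DedekindPIT (partialSum)
open FA.ChebError (share setLog)
open FA.NaturalChebotarev (countIn someFrobSet)
open scoped Real Classical

namespace FA.ClassGRH

/-- Every prime has a Frobenius element. -/
theorem someFrobSet_univ_eq {K : Type u} {L : Type v} [Field K] [NumberField K] [Field L]
    [NumberField L] [Algebra K L] [IsGalois K L] :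
    someFrobSet K L (Set.univ : Set (L ≃ₐ[K] L)) = Set.univ :=
  Set.eq_univ_of_forall fun v =>
    let ⟨Q, hQ, hQv, τ, hτ⟩ := FA.Chebotarev.exists_isArithFrobAt (L := L) v
    ⟨Q, hQ, hQv, τ, Set.mem_univ τ, hτ⟩

/-- **A small prime without a trivial Frobenius element.** -/
theorem exists_nonsplit_prime_of_RH : ∃ B : ℝ, 0 < B ∧
    ∀ {K : Type u} {L : Type v} [Field K] [NumberField K] [Field L] [NumberField L] [Algebra K L]
      [IsGalois K L], FieldRH K → FieldRH L → 2 ≤ finrank K L → ∀ (R : ℝ) (m : ℕ),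
      fieldSize K ≤ R → fieldSize L ≤ finrank K L * R → m ≠ 0 → Real.log m ≤ R →
      ∃ w : HeightOneSpectrum (𝓞 K), w ∉ someFrobSet K L {1} ∧ (m : 𝓞 K) ∉ w.asIdeal ∧
        (Ideal.absNorm w.asIdeal : ℝ) ≤ B * R ^ 2 * Real.log (2 * R) ^ 8 := by
  obtain ⟨A₀, hA₀, h₀⟩ := FA.ChebGRH.exists_thetaF_le.{u, u}
  obtain ⟨A₁, hA₁, h₁⟩ := FA.ChebGRH.exists_thetaF_le.{u, v}
  obtain ⟨u, hu1, hu⟩ := FA.ChebGRH.exists_large (2 * (A₀ + A₁ + 1)) (by positivity)
  refine ⟨u ^ 2, by positivity, fun {K L} _ _ _ _ _ _ hK hL hd R m hKR hLR hm hmR => ?_⟩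
  have hR2 : 2 ≤ R := (FA.ChebGRH.log_discr_le_fieldSize K).2.2.trans hKR
  obtain ⟨l, hl⟩ : ∃ l, l = Real.log (2 * R) := ⟨_, rfl⟩
  rw [← hl]
  have hl1 : 1 ≤ l := by
    rw [hl, Real.le_log_iff_exp_le (by positivity)]
    linarith [Real.exp_one_lt_three]
  obtain ⟨x, hx⟩ : ∃ x, x = u ^ 2 * R ^ 2 * l ^ 8 := ⟨_, rfl⟩
  rw [← hx]
  have hsx : √x = u * R * l ^ 4 := by
    rw [hx, show u ^ 2 * R ^ 2 * l ^ 8 = (u * R * l ^ 4) ^ 2 by ring,
      Real.sqrt_sq (by positivity)]
  have hsx1 : R ≤ √x := by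
    rw [hsx, mul_assoc]
    exact (le_mul_of_one_le_right (by linarith) (one_le_pow₀ hl1)).trans
      (le_mul_of_one_le_left (by positivity) hu1)
  have hx1 : 1 ≤ x := Real.one_le_sqrt.1 (le_trans (by linarith) hsx1)
  have hlx : 0 ≤ Real.log x := Real.log_nonneg hx1
  have hlog : Real.log x + 4 ≤ (2 * Real.log u + 14) * l := by
    have e : Real.log x = 2 * Real.log u + 2 * Real.log R + 8 * Real.log l := by
      rw [hx, Real.log_mul (by positivity) (by positivity),
        Real.log_mul (by positivity) (by positivity), Real.log_pow, Real.log_pow, Real.log_pow]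
      norm_num
    have e1 : Real.log R ≤ l := hl ▸ Real.log_le_log (by linarith) (by linarith)
    have e2 : Real.log l ≤ l := by linarith [Real.log_le_sub_one_of_pos (show 0 < l by linarith)]
    have e3 := le_mul_of_one_le_right (Real.log_nonneg hu1) hl1
    linarith
  obtain ⟨P, hP⟩ : ∃ P, P = √x * (Real.log x + 4) ^ 4 := ⟨_, rfl⟩
  have hPR : R ≤ P :=
    hP ▸ hsx1.trans (le_mul_of_one_le_right (Real.sqrt_nonneg x) (one_le_pow₀ (by linarith)))
  have hbig : 2 * (A₀ + A₁ + 1) * (R * P) < x := by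
    calc 2 * (A₀ + A₁ + 1) * (R * P)
        ≤ 2 * (A₀ + A₁ + 1) * (R * (√x * ((2 * Real.log u + 14) * l) ^ 4)) := by
          rw [hP]; gcongr
      _ = 2 * (A₀ + A₁ + 1) * (2 * Real.log u + 14) ^ 4 * (R * l ^ 4 * √x) := by ring
      _ < u * (R * l ^ 4 * √x) := mul_lt_mul_of_pos_right hu (by
          have : 0 < √x := by linarith
          positivity)
      _ = √x * √x := by rw [hsx]; ring
      _ = x := Real.mul_self_sqrt (by linarith)
  have hdR : (2 : ℝ) ≤ finrank K L := by exact_mod_cast hd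
  have e0 : share (Set.univ : Set (K ≃ₐ[K] K)) = 1 := by
    rw [share, Nat.card_univ, div_self (Nat.cast_ne_zero.2 Nat.card_pos.ne')]
  have e1 : share ({1} : Set (L ≃ₐ[K] L)) = (finrank K L : ℝ)⁻¹ := by
    rw [share, Nat.card_unique, IsGalois.card_aut_eq_finrank, Nat.cast_one, one_div]
  have t0 := h₀ hK (Set.univ : Set (K ≃ₐ[K] K)) (fun _ _ _ => Set.mem_univ _)
    Set.univ_nonempty x hx1
  rw [someFrobSet_univ_eq, e0, one_mul, mul_one, ← hP] at t0
  have t1 := h₁ hL ({1} : Set (L ≃ₐ[K] L)) (fun g hg y => by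
    rw [Set.mem_singleton_iff.1 hg, mul_one, mul_inv_cancel]
    rfl) (Set.singleton_nonempty 1) x hx1
  rw [e1, ← hP] at t1
  obtain ⟨W, hW⟩ : ∃ W : Set (HeightOneSpectrum (𝓞 K)),
      W = {w | ((m : ℤ) : 𝓞 K) ∈ w.asIdeal} := ⟨_, rfl⟩
  have t2 : partialSum (setLog W) x ≤ R * R := by
    rw [hW]
    refine (FA.EffCheb.partialSum_setLog_dvd_le (Int.natCast_ne_zero.2 hm) x).trans ?_
    rw [Int.natAbs_natCast]
    exact mul_le_mul ((one_le_fieldSize (K := K)).2.trans hKR) hmR
      (Real.log_natCast_nonneg m) (by linarith)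
  have t3 := FA.EffCheb.partialSum_setLog_diff_ge
    (Set.univ : Set (HeightOneSpectrum (𝓞 K))) (someFrobSet K L {1}) x
  have t4 := FA.EffCheb.partialSum_setLog_diff_ge (Set.univ \ someFrobSet K L {1}) W x
  have hP0 : 0 ≤ P := by linarith
  have b0 : A₀ * fieldSize K * P ≤ A₀ * (R * P) := by
    rw [mul_assoc]; gcongr
  have b1 : A₁ * (finrank K L : ℝ)⁻¹ * fieldSize L * P ≤ A₁ * (R * P) := by
    rw [mul_assoc A₁, mul_assoc A₁]
    refine mul_le_mul_of_nonneg_left (mul_le_mul_of_nonneg_right ?_ hP0) hA₁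
    rw [inv_mul_le_iff₀ (by linarith)]
    exact hLR
  have b2 : (finrank K L : ℝ)⁻¹ * x ≤ x / 2 := by
    rw [div_eq_inv_mul x 2]
    exact mul_le_mul_of_nonneg_right (inv_anti₀ two_pos hdR) (by linarith)
  have b3 : R * R ≤ R * P := mul_le_mul_of_nonneg_left hPR (by linarith)
  have hpos : 0 < partialSum (setLog ((Set.univ \ someFrobSet K L {1}) \ W)) x := by
    have c0 := (abs_le.1 t0).1
    have c1 := (abs_le.1 t1).2
    linarith
  by_contra hno
  push Not at hno
  have h5 : countIn ((Set.univ \ someFrobSet K L {1}) \ W) x = 0 := by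
    simp only [countIn, Finset.card_eq_zero, Finset.filter_eq_empty_iff]
    refine fun w hw hg => (hno w hg.1.2 fun hmem => hg.2 ?_).not_ge
      ((Nat.cast_le.2 (FA.Hecke.mem_primesLE.1 hw)).trans (Nat.floor_le (by linarith)))
    rw [hW]
    show ((m : ℤ) : 𝓞 K) ∈ w.asIdeal
    rwa [Int.cast_natCast]
  have h6 := FA.EffCheb.partialSum_setLog_le ((Set.univ \ someFrobSet K L {1}) \ W) x
  rw [h5, Nat.cast_zero, zero_mul] at h6
  linarith

end FA.ClassGRH

end
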